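import Fermat.Agent.LT.T6.H967.TorAlg
import Fermat.Agent.LT.T6.H75.EllTwSpec

/-!
# Row LT, tower T6, leaf T6.20e.2e.2 `H75.TorNormC75` (helper967), part 2: THE LEAF

OFF-MAIN.  `torNormC967 : H75.TorNormC75` VERBATIM (spec `H75/EllTwSpec.lean`, helper75).

`γ ∈ GL₂(ℝ)` elliptic, `T` its centraliser, `μT` a Haar measure of `T`, `f = log det : T → ℝ`.
The image `P = f_* μT` is invariant under translations (translate by the scalar `e^{s/2}`) and
finite on compact sets (the determinant bands are compact: `TorAlg.lean`), hence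
`P = P [0,1] · Lebesgue` (uniqueness of the Haar measure of `ℝ`), and
`P [0,2] = μT {1 ≤ det ≤ e²} = 2 π λ`.
-/

set_option autoImplicit false
set_option linter.style.haveILetI false

open scoped Matrix ENNReal
open MeasureTheory Topology

noncomputable section

namespace Fermat.Agent.LT.T6.H967

open Fermat.Agent.LT.T6 Fermat.Agent.LT.T6.H634 Fermat.Agent.LT.T6.H75

/-- `log det` on the centraliser. -/
def logDet967 (γ : GL (Fin 2) ℝ) (t : twCentSub (MonoidHom.id (GL (Fin 2) ℝ)) γ) : ℝ :=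
  Real.log ((t : GL (Fin 2) ℝ) : Matrix (Fin 2) (Fin 2) ℝ).det

theorem continuous_logDet967 (γ : GL (Fin 2) ℝ) (hγ : disc γ < 0) :
    Continuous (logDet967 γ) := by
  have h1 : Continuous fun t : twCentSub (MonoidHom.id (GL (Fin 2) ℝ)) γ =>
      ((t : GL (Fin 2) ℝ) : Matrix (Fin 2) (Fin 2) ℝ).det :=
    (Units.continuous_val.comp continuous_subtype_val).matrix_det
  exact h1.log fun t => (det_pos967 γ hγ t).ne'

/-- The scalar matrix `e^{s/2}` as an element of `GL₂(ℝ)`. -/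
def scalG967 (s : ℝ) : GL (Fin 2) ℝ :=
  Matrix.GeneralLinearGroup.mkOfDetNeZero !![Real.exp (s / 2), 0; 0, Real.exp (s / 2)]
    (by simp [Matrix.det_fin_two, Real.exp_ne_zero])

theorem scalG_mem967 (γ : GL (Fin 2) ℝ) (s : ℝ) :
    scalG967 s ∈ twCentSub (MonoidHom.id (GL (Fin 2) ℝ)) γ := by
  rw [mem_twCent_iff967]
  ext i j
  fin_cases i <;> fin_cases j <;>
    simp [scalG967, Matrix.mul_apply, Fin.sum_univ_two, mul_comm]

/-- The scalar `e^{s/2}` as an element of the centraliser. -/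
def scal967 (γ : GL (Fin 2) ℝ) (s : ℝ) : twCentSub (MonoidHom.id (GL (Fin 2) ℝ)) γ :=
  ⟨scalG967 s, scalG_mem967 γ s⟩

theorem det_scalG967 (s : ℝ) :
    ((scalG967 s : GL (Fin 2) ℝ) : Matrix (Fin 2) (Fin 2) ℝ).det = Real.exp s := by
  show (!![Real.exp (s / 2), 0; 0, Real.exp (s / 2)] : Matrix (Fin 2) (Fin 2) ℝ).det
    = Real.exp s
  rw [Matrix.det_fin_two_of, mul_zero, sub_zero, ← Real.exp_add]
  congr 1
  ring

theorem logDet_scal_mul967 (γ : GL (Fin 2) ℝ) (hγ : disc γ < 0) (s : ℝ)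
    (t : twCentSub (MonoidHom.id (GL (Fin 2) ℝ)) γ) :
    logDet967 γ (scal967 γ s * t) = s + logDet967 γ t := by
  have h1 : (((scal967 γ s * t : twCentSub (MonoidHom.id (GL (Fin 2) ℝ)) γ) : GL (Fin 2) ℝ) :
      Matrix (Fin 2) (Fin 2) ℝ)
      = ((scalG967 s : GL (Fin 2) ℝ) : Matrix (Fin 2) (Fin 2) ℝ)
        * ((t : GL (Fin 2) ℝ) : Matrix (Fin 2) (Fin 2) ℝ) := rfl
  unfold logDet967
  rw [h1, Matrix.det_mul, det_scalG967,
    Real.log_mul (Real.exp_ne_zero s) (det_pos967 γ hγ t).ne', Real.log_exp]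

/-- The preimage of an interval under `log det` is a determinant band. -/
theorem logDet_preimage_Icc967 (γ : GL (Fin 2) ℝ) (hγ : disc γ < 0) (A B : ℝ) :
    logDet967 γ ⁻¹' Set.Icc A B
      = {t : twCentSub (MonoidHom.id (GL (Fin 2) ℝ)) γ |
          Real.exp A ≤ ((t : GL (Fin 2) ℝ) : Matrix (Fin 2) (Fin 2) ℝ).det ∧
            ((t : GL (Fin 2) ℝ) : Matrix (Fin 2) (Fin 2) ℝ).det ≤ Real.exp B} := by
  ext t
  have hp := det_pos967 γ hγ t
  constructor
  · rintro ⟨h1, h2⟩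
    exact ⟨(Real.le_log_iff_exp_le hp).1 h1, (Real.log_le_iff_le_exp hp).1 h2⟩
  · rintro ⟨h1, h2⟩
    exact ⟨(Real.le_log_iff_exp_le hp).2 h1, (Real.log_le_iff_le_exp hp).2 h2⟩

/-- **T6.20e.2e.2**: the normalisation of the Haar measure of the elliptic torus. -/
theorem torNormC967 : TorNormC75 := by
  intro γ hγ μT hμT
  letI : MeasurableSpace (twCentSub (MonoidHom.id (GL (Fin 2) ℝ)) γ) := borel _
  haveI : BorelSpace (twCentSub (MonoidHom.id (GL (Fin 2) ℝ)) γ) := ⟨rfl⟩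
  haveI : μT.IsHaarMeasure := hμT
  have hf : Continuous (logDet967 γ) := continuous_logDet967 γ hγ
  have hfm : Measurable (logDet967 γ) := hf.measurable
  -- the image measure
  obtain ⟨P, hPdef⟩ : ∃ P : Measure ℝ, P = Measure.map (logDet967 γ) μT := ⟨_, rfl⟩
  have hPapp : ∀ S : Set ℝ, MeasurableSet S → P S = μT (logDet967 γ ⁻¹' S) := by
    intro S hS
    rw [hPdef, Measure.map_apply hfm hS]
  -- invariance under translations
  haveI : P.IsAddLeftInvariant := by
    refine ⟨fun s => ?_⟩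
    have hc : Measurable fun t : twCentSub (MonoidHom.id (GL (Fin 2) ℝ)) γ => scal967 γ s * t :=
      (continuous_const_mul (scal967 γ s)).measurable
    have e : (fun y : ℝ => s + y) ∘ logDet967 γ
        = logDet967 γ ∘ fun t => scal967 γ s * t := by
      funext t
      exact (logDet_scal_mul967 γ hγ s t).symm
    rw [hPdef, Measure.map_map (measurable_const_add s) hfm, e, ← Measure.map_map hfm hc,
      map_mul_left_eq_self]
  -- finiteness on the intervals
  have hfin : ∀ A B : ℝ, P (Set.Icc A B) < ⊤ := by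
    intro A B
    rw [hPapp _ measurableSet_Icc, logDet_preimage_Icc967 γ hγ]
    exact (isCompact_detBand967 γ hγ _ _ (Real.exp_pos A)).measure_lt_top
  haveI : IsFiniteMeasureOnCompacts P := by
    refine ⟨fun K hK => ?_⟩
    obtain ⟨r, hr⟩ := (Metric.isBounded_iff_subset_closedBall (0 : ℝ)).1 hK.isBounded
    rw [Real.closedBall_eq_Icc] at hr
    exact lt_of_le_of_lt (measure_mono hr) (hfin _ _)
  -- uniqueness of the Haar measure of `ℝ`
  obtain ⟨c, hc⟩ : ∃ c : ℝ≥0∞, P = c • (volume : Measure ℝ) := by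
    refine ⟨P TopologicalSpace.PositiveCompacts.Icc01, ?_⟩
    have h := Measure.addHaarMeasure_unique P TopologicalSpace.PositiveCompacts.Icc01
    rwa [addHaarMeasure_eq_volume] at h
  -- the band of `lamT634`
  have hS : μT {t | 1 ≤ ((t : GL (Fin 2) ℝ) : Matrix (Fin 2) (Fin 2) ℝ).det ∧
      ((t : GL (Fin 2) ℝ) : Matrix (Fin 2) (Fin 2) ℝ).det ≤ Real.exp 2} = c * 2 := by
    have h1 := hPapp (Set.Icc 0 2) measurableSet_Icc
    rw [logDet_preimage_Icc967 γ hγ, Real.exp_zero] at h1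
    rw [← h1, hc, Measure.smul_apply, Real.volume_Icc, smul_eq_mul]
    norm_num
  have hSfin : μT {t | 1 ≤ ((t : GL (Fin 2) ℝ) : Matrix (Fin 2) (Fin 2) ℝ).det ∧
      ((t : GL (Fin 2) ℝ) : Matrix (Fin 2) (Fin 2) ℝ).det ≤ Real.exp 2} < ⊤ :=
    (isCompact_detBand967 γ hγ _ _ one_pos).measure_lt_top
  have hSpos : 0 < μT {t | 1 ≤ ((t : GL (Fin 2) ℝ) : Matrix (Fin 2) (Fin 2) ℝ).det ∧
      ((t : GL (Fin 2) ℝ) : Matrix (Fin 2) (Fin 2) ℝ).det ≤ Real.exp 2} := by
    have hopen : IsOpen (logDet967 γ ⁻¹' Set.Ioo 0 2) := isOpen_Ioo.preimage hf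
    have hne : (logDet967 γ ⁻¹' Set.Ioo 0 2).Nonempty := by
      refine ⟨scal967 γ 1, ?_⟩
      have h1 : logDet967 γ (scal967 γ 1) = 1 := by
        have := logDet_scal_mul967 γ hγ 1 1
        rw [mul_one] at this
        rw [this]
        simp [logDet967]
      show logDet967 γ (scal967 γ 1) ∈ Set.Ioo (0 : ℝ) 2
      rw [h1]
      constructor <;> norm_num
    have hsub : logDet967 γ ⁻¹' Set.Ioo 0 2 ⊆
        {t | 1 ≤ ((t : GL (Fin 2) ℝ) : Matrix (Fin 2) (Fin 2) ℝ).det ∧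
          ((t : GL (Fin 2) ℝ) : Matrix (Fin 2) (Fin 2) ℝ).det ≤ Real.exp 2} := by
      have h2 := logDet_preimage_Icc967 γ hγ 0 2
      rw [Real.exp_zero] at h2
      rw [← h2]
      exact Set.preimage_mono Set.Ioo_subset_Icc_self
    exact lt_of_lt_of_le (hopen.measure_pos μT hne) (measure_mono hsub)
  have hlam : lamT634 γ μT = c.toReal / Real.pi := by
    unfold lamT634
    rw [hS, ENNReal.toReal_mul]
    have hpi : Real.pi ≠ 0 := Real.pi_ne_zero
    simp only [ENNReal.toReal_ofNat]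
    field_simp
  have hcpos : 0 < c.toReal := by
    have h1 : c * 2 ≠ 0 := by rw [← hS]; exact hSpos.ne'
    have h2 : c * 2 ≠ ⊤ := by rw [← hS]; exact hSfin.ne
    have h3 : c ≠ 0 := fun h0 => h1 (by rw [h0, zero_mul])
    have h4 : c ≠ ⊤ := fun h0 => h2 (by rw [h0]; simp)
    exact ENNReal.toReal_pos h3 h4
  refine ⟨?_, ?_⟩
  · rw [hlam]
    exact div_pos hcpos Real.pi_pos
  · intro h hh _ s
    have hg : Continuous fun y : ℝ => h (y + s) := hh.comp (continuous_id.add continuous_const)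
    have e1 : ∫ t, h (Real.log ((t : GL (Fin 2) ℝ) : Matrix (Fin 2) (Fin 2) ℝ).det + s) ∂μT
        = ∫ y, h (y + s) ∂P := by
      rw [hPdef]
      exact (integral_map hfm.aemeasurable hg.aestronglyMeasurable).symm
    have e2 : ∫ y, h (y + s) ∂P = c.toReal * ∫ y, h y := by
      rw [hc, integral_smul_measure, integral_add_right_eq_self, smul_eq_mul]
    have e3 : Real.pi * lamT634 γ μT = c.toReal := by
      rw [hlam]
      field_simp
    rw [e3]
    exact e1.trans e2

end Fermat.Agent.LT.T6.H967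

end
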