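import Mathlib
import Fermat.Agent.LT.T6.Spec

/-!
# Row LT, tower T6, leaf T6.20e.2e.2 `H75.TorNormC75` (helper967), part 1: ALGEBRA + TOPOLOGY

OFF-MAIN.  The centraliser `T` of an elliptic `γ ∈ GL₂(ℝ)` (`disc γ < 0`):

* `det_pos967` : `0 < det t` for `t ∈ T`  (`4 q² det t = q² (tr t)² + t₀₁² (-disc γ)`, `q = γ₀₁ ≠ 0`);
* `isCompact_detBand967` : `{t ∈ T | c ≤ det t ≤ C}` is compact for `0 < c`
  (closed and entrywise bounded in `M₂(ℝ)`; `GL₂(ℝ) → M₂(ℝ)` is an embedding).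
-/

set_option autoImplicit false
set_option linter.style.haveILetI false

open scoped Matrix
open Topology

noncomputable section

namespace Fermat.Agent.LT.T6.H967

open Fermat.Agent.LT.T6

/-- Membership in the centraliser, in matrix form. -/
theorem mem_twCent_iff967 (γ x : GL (Fin 2) ℝ) :
    x ∈ twCentSub (MonoidHom.id (GL (Fin 2) ℝ)) γ ↔
      (γ : Matrix (Fin 2) (Fin 2) ℝ) * (x : Matrix (Fin 2) (Fin 2) ℝ)
        = (x : Matrix (Fin 2) (Fin 2) ℝ) * (γ : Matrix (Fin 2) (Fin 2) ℝ) := by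
  have h1 : x ∈ twCentSub (MonoidHom.id (GL (Fin 2) ℝ)) γ ↔ x⁻¹ * γ * x = γ := Iff.rfl
  rw [h1]
  constructor
  · intro h
    have h2 : γ * x = x * γ := by
      calc γ * x = x * (x⁻¹ * γ * x) := by group
        _ = x * γ := by rw [h]
    have := congrArg (fun g : GL (Fin 2) ℝ => (g : Matrix (Fin 2) (Fin 2) ℝ)) h2
    simpa using this
  · intro h
    have h2 : γ * x = x * γ := by
      apply Units.ext
      simpa using h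
    calc x⁻¹ * γ * x = x⁻¹ * (γ * x) := by group
      _ = x⁻¹ * (x * γ) := by rw [h2]
      _ = γ := by group

/-- The entrywise form of the commutation relation. -/
theorem comm_entries967 (Γ X : Matrix (Fin 2) (Fin 2) ℝ) (h : Γ * X = X * Γ) :
    Γ 0 1 * X 1 0 = X 0 1 * Γ 1 0 ∧
      Γ 0 1 * X 1 1 = Γ 0 1 * X 0 0 + X 0 1 * (Γ 1 1 - Γ 0 0) := by
  have h00 := congrFun (congrFun h 0) 0
  have h01 := congrFun (congrFun h 0) 1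
  simp only [Matrix.mul_apply, Fin.sum_univ_two] at h00 h01
  constructor
  · linarith
  · linarith

/-- `disc < 0` forces `γ₀₁ ≠ 0`. -/
theorem q_ne_zero967 (Γ : Matrix (Fin 2) (Fin 2) ℝ) (hd : Γ.trace ^ 2 - 4 * Γ.det < 0) :
    Γ 0 1 ≠ 0 := by
  intro h0
  rw [Matrix.trace_fin_two, Matrix.det_fin_two, h0] at hd
  nlinarith [sq_nonneg (Γ 0 0 - Γ 1 1)]

/-- **The key identity**: `4 q² det X = q² (tr X)² + X₀₁² (-disc Γ)` for `X` commuting with `Γ`. -/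
theorem key967 (Γ X : Matrix (Fin 2) (Fin 2) ℝ) (h : Γ * X = X * Γ) :
    4 * Γ 0 1 ^ 2 * X.det
      = Γ 0 1 ^ 2 * (X 0 0 + X 1 1) ^ 2 + X 0 1 ^ 2 * (-(Γ.trace ^ 2 - 4 * Γ.det)) := by
  obtain ⟨h1, h2⟩ := comm_entries967 Γ X h
  rw [Matrix.trace_fin_two, Matrix.det_fin_two, Matrix.det_fin_two]
  have e1 : Γ 0 1 ^ 2 * (X 0 0 * X 1 1) = Γ 0 1 * X 0 0 * (Γ 0 1 * X 1 1) := by ring
  have e2 : Γ 0 1 ^ 2 * (X 0 1 * X 1 0) = Γ 0 1 * X 0 1 * (Γ 0 1 * X 1 0) := by ring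
  have e3 : Γ 0 1 ^ 2 * (X 0 0 + X 1 1) ^ 2 = (Γ 0 1 * X 0 0 + Γ 0 1 * X 1 1) ^ 2 := by ring
  have : 4 * Γ 0 1 ^ 2 * (X 0 0 * X 1 1 - X 0 1 * X 1 0)
      = 4 * (Γ 0 1 ^ 2 * (X 0 0 * X 1 1)) - 4 * (Γ 0 1 ^ 2 * (X 0 1 * X 1 0)) := by ring
  rw [this, e1, e2, e3, h1, h2]
  ring

/-- `0 < det X` for an invertible `X` commuting with an elliptic `Γ`. -/
theorem det_pos_of_comm967 (Γ X : Matrix (Fin 2) (Fin 2) ℝ)
    (hd : Γ.trace ^ 2 - 4 * Γ.det < 0) (h : Γ * X = X * Γ) (hX : X.det ≠ 0) : 0 < X.det := by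
  have hq := q_ne_zero967 Γ hd
  have hq2 : 0 < Γ 0 1 ^ 2 := by positivity
  have hk := key967 Γ X h
  have h0 : 0 ≤ 4 * Γ 0 1 ^ 2 * X.det := by
    rw [hk]
    have : 0 ≤ -(Γ.trace ^ 2 - 4 * Γ.det) := by linarith
    positivity
  have h1 : 0 ≤ X.det := by
    by_contra hneg0
    have hneg : X.det < 0 := lt_of_not_ge hneg0
    have : 4 * Γ 0 1 ^ 2 * X.det < 0 := by
      have : 0 < 4 * Γ 0 1 ^ 2 := by positivity
      exact mul_neg_of_pos_of_neg this hneg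
    linarith
  exact lt_of_le_of_ne h1 (Ne.symm hX)

/-- `0 < det t` on the centraliser of an elliptic `γ`. -/
theorem det_pos967 (γ : GL (Fin 2) ℝ) (hγ : disc γ < 0)
    (t : twCentSub (MonoidHom.id (GL (Fin 2) ℝ)) γ) :
    0 < ((t : GL (Fin 2) ℝ) : Matrix (Fin 2) (Fin 2) ℝ).det := by
  have hm := (mem_twCent_iff967 γ t).1 t.2
  refine det_pos_of_comm967 _ _ hγ hm ?_
  exact ((Matrix.isUnit_iff_isUnit_det _).1 (t : GL (Fin 2) ℝ).isUnit).ne_zero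

/-! ## Compactness of the determinant bands -/

/-- `GL₂(ℝ) → M₂(ℝ)` is a topological embedding. -/
theorem isEmbedding_val967 :
    IsEmbedding (Units.val : GL (Fin 2) ℝ → Matrix (Fin 2) (Fin 2) ℝ) := by
  letI : NormedRing (Matrix (Fin 2) (Fin 2) ℝ) := Matrix.linftyOpNormedRing
  letI : NormedAlgebra ℝ (Matrix (Fin 2) (Fin 2) ℝ) := Matrix.linftyOpNormedAlgebra
  exact Units.isOpenEmbedding_val.isEmbedding

/-- The boxes of `M₂(ℝ)` are compact. -/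
theorem isCompact_box967 (R : ℝ) :
    IsCompact {X : Matrix (Fin 2) (Fin 2) ℝ | ∀ i j, X i j ∈ Set.Icc (-R) R} := by
  have h : IsCompact (Set.pi Set.univ fun _ : Fin 2 =>
      Set.pi Set.univ fun _ : Fin 2 => Set.Icc (-R) R) :=
    isCompact_univ_pi fun _ => isCompact_univ_pi fun _ => isCompact_Icc
  have e : {X : Matrix (Fin 2) (Fin 2) ℝ | ∀ i j, X i j ∈ Set.Icc (-R) R}
      = (Set.pi Set.univ fun _ : Fin 2 => Set.pi Set.univ fun _ : Fin 2 => Set.Icc (-R) R) := by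
    ext X
    exact ⟨fun hX i _ j _ => hX i j, fun hX i j => hX i (Set.mem_univ i) j (Set.mem_univ j)⟩
  rw [e]
  exact h

/-- `|x| ≤ 1 + b` if `x² ≤ b`. -/
theorem abs_le_of_sq_le967 {x b : ℝ} (h : x ^ 2 ≤ b) : x ∈ Set.Icc (-(1 + b)) (1 + b) := by
  constructor
  · nlinarith [sq_nonneg (x + 1)]
  · nlinarith [sq_nonneg (x - 1)]

/-- The band `{X | Γ X = X Γ, c ≤ det X ≤ C}` of `M₂(ℝ)`. -/
def band967 (Γ : Matrix (Fin 2) (Fin 2) ℝ) (c C : ℝ) : Set (Matrix (Fin 2) (Fin 2) ℝ) :=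
  {X | Γ * X = X * Γ ∧ c ≤ X.det ∧ X.det ≤ C}

theorem isClosed_band967 (Γ : Matrix (Fin 2) (Fin 2) ℝ) (c C : ℝ) : IsClosed (band967 Γ c C) := by
  have h1 : IsClosed {X : Matrix (Fin 2) (Fin 2) ℝ | Γ * X = X * Γ} :=
    isClosed_eq (continuous_const.matrix_mul continuous_id)
      (continuous_id.matrix_mul continuous_const)
  have h2 : IsClosed {X : Matrix (Fin 2) (Fin 2) ℝ | c ≤ X.det} :=
    isClosed_le continuous_const continuous_id.matrix_det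
  have h3 : IsClosed {X : Matrix (Fin 2) (Fin 2) ℝ | X.det ≤ C} :=
    isClosed_le continuous_id.matrix_det continuous_const
  have e : band967 Γ c C = {X : Matrix (Fin 2) (Fin 2) ℝ | Γ * X = X * Γ} ∩
      ({X | c ≤ X.det} ∩ {X | X.det ≤ C}) := by
    ext X
    exact ⟨fun hX => ⟨hX.1, hX.2.1, hX.2.2⟩, fun hX => ⟨hX.1, hX.2.1, hX.2.2⟩⟩
  rw [e]
  exact h1.inter (h2.inter h3)

/-- The entries of the band are bounded. -/
theorem band_bounded967 (Γ : Matrix (Fin 2) (Fin 2) ℝ) (hd : Γ.trace ^ 2 - 4 * Γ.det < 0)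
    (c C : ℝ) : ∃ R : ℝ, band967 Γ c C ⊆ {X | ∀ i j, X i j ∈ Set.Icc (-R) R} := by
  have hq := q_ne_zero967 Γ hd
  have hq2 : 0 < Γ 0 1 ^ 2 := by positivity
  set δ : ℝ := -(Γ.trace ^ 2 - 4 * Γ.det) with hδ
  have hδ0 : 0 < δ := by rw [hδ]; linarith
  -- the bound of the squares of the entries
  set B : ℝ := 2 * |C| + 2 * |C| * (Γ 1 1 - Γ 0 0) ^ 2 / δ + 4 * Γ 0 1 ^ 2 * |C| / δ
      + 4 * Γ 1 0 ^ 2 * |C| / δ with hB
  refine ⟨1 + B, ?_⟩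
  rintro X ⟨hX, -, hC⟩
  obtain ⟨h1, h2⟩ := comm_entries967 Γ X hX
  have hk := key967 Γ X hX
  rw [← hδ] at hk
  have hCa : X.det ≤ |C| := hC.trans (le_abs_self C)
  have hC0 : 0 ≤ |C| := abs_nonneg C
  -- `(tr X)² ≤ 4 |C|`
  have ht : (X 0 0 + X 1 1) ^ 2 ≤ 4 * |C| := by
    have h3 : Γ 0 1 ^ 2 * (X 0 0 + X 1 1) ^ 2 ≤ Γ 0 1 ^ 2 * (4 * |C|) := by
      have : 0 ≤ X 0 1 ^ 2 * δ := by positivity
      nlinarith [mul_le_mul_of_nonneg_left hCa (by positivity : (0:ℝ) ≤ 4 * Γ 0 1 ^ 2)]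
    exact le_of_mul_le_mul_left h3 hq2
  -- `X₀₁² ≤ 4 q² |C| / δ`
  have hx2 : X 0 1 ^ 2 ≤ 4 * Γ 0 1 ^ 2 * |C| / δ := by
    rw [le_div_iff₀ hδ0]
    have : 0 ≤ Γ 0 1 ^ 2 * (X 0 0 + X 1 1) ^ 2 := by positivity
    nlinarith [mul_le_mul_of_nonneg_left hCa (by positivity : (0:ℝ) ≤ 4 * Γ 0 1 ^ 2)]
  -- `X₁₀² ≤ 4 r² |C| / δ`
  have hx3 : X 1 0 ^ 2 ≤ 4 * Γ 1 0 ^ 2 * |C| / δ := by
    have e : X 1 0 = X 0 1 * Γ 1 0 / Γ 0 1 := by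
      field_simp
      linarith
    have e2 : X 1 0 ^ 2 = X 0 1 ^ 2 * (Γ 1 0 ^ 2 / Γ 0 1 ^ 2) := by
      rw [e]; ring
    rw [e2]
    have hr : 0 ≤ Γ 1 0 ^ 2 / Γ 0 1 ^ 2 := by positivity
    calc X 0 1 ^ 2 * (Γ 1 0 ^ 2 / Γ 0 1 ^ 2)
        ≤ 4 * Γ 0 1 ^ 2 * |C| / δ * (Γ 1 0 ^ 2 / Γ 0 1 ^ 2) :=
          mul_le_mul_of_nonneg_right hx2 hr
      _ = 4 * Γ 1 0 ^ 2 * |C| / δ := by
          field_simp
  -- `(X₀₀ - X₁₁)² ≤ 4 |C| (s - p)² / δ`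
  have hdiff : (X 0 0 - X 1 1) ^ 2 ≤ 4 * |C| * (Γ 1 1 - Γ 0 0) ^ 2 / δ := by
    have e : X 0 0 - X 1 1 = -(X 0 1 * (Γ 1 1 - Γ 0 0) / Γ 0 1) := by
      field_simp
      linarith
    have e2 : (X 0 0 - X 1 1) ^ 2 = X 0 1 ^ 2 * ((Γ 1 1 - Γ 0 0) ^ 2 / Γ 0 1 ^ 2) := by
      rw [e]; ring
    rw [e2]
    have hr : 0 ≤ (Γ 1 1 - Γ 0 0) ^ 2 / Γ 0 1 ^ 2 := by positivity
    calc X 0 1 ^ 2 * ((Γ 1 1 - Γ 0 0) ^ 2 / Γ 0 1 ^ 2)
        ≤ 4 * Γ 0 1 ^ 2 * |C| / δ * ((Γ 1 1 - Γ 0 0) ^ 2 / Γ 0 1 ^ 2) :=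
          mul_le_mul_of_nonneg_right hx2 hr
      _ = 4 * |C| * (Γ 1 1 - Γ 0 0) ^ 2 / δ := by
          field_simp
  have n1 : 0 ≤ 2 * |C| * (Γ 1 1 - Γ 0 0) ^ 2 / δ := by positivity
  have n2 : 0 ≤ 4 * Γ 0 1 ^ 2 * |C| / δ := by positivity
  have n3 : 0 ≤ 4 * Γ 1 0 ^ 2 * |C| / δ := by positivity
  have n0 : 0 ≤ 2 * |C| := by positivity
  have hhalf : 4 * |C| * (Γ 1 1 - Γ 0 0) ^ 2 / δ = 2 * (2 * |C| * (Γ 1 1 - Γ 0 0) ^ 2 / δ) := by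
    ring
  have hx1 : X 0 0 ^ 2 ≤ B := by
    have : X 0 0 ^ 2 ≤ ((X 0 0 + X 1 1) ^ 2 + (X 0 0 - X 1 1) ^ 2) / 2 := by
      nlinarith [sq_nonneg (X 1 1)]
    rw [hB]
    linarith
  have hx4 : X 1 1 ^ 2 ≤ B := by
    have : X 1 1 ^ 2 ≤ ((X 0 0 + X 1 1) ^ 2 + (X 0 0 - X 1 1) ^ 2) / 2 := by
      nlinarith [sq_nonneg (X 0 0)]
    rw [hB]
    linarith
  have hx2' : X 0 1 ^ 2 ≤ B := by rw [hB]; linarith
  have hx3' : X 1 0 ^ 2 ≤ B := by rw [hB]; linarith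
  intro i j
  fin_cases i <;> fin_cases j
  · exact abs_le_of_sq_le967 hx1
  · exact abs_le_of_sq_le967 hx2'
  · exact abs_le_of_sq_le967 hx3'
  · exact abs_le_of_sq_le967 hx4

/-- The band is compact. -/
theorem isCompact_band967 (Γ : Matrix (Fin 2) (Fin 2) ℝ) (hd : Γ.trace ^ 2 - 4 * Γ.det < 0)
    (c C : ℝ) : IsCompact (band967 Γ c C) := by
  obtain ⟨R, hR⟩ := band_bounded967 Γ hd c C
  exact (isCompact_box967 R).of_isClosed_subset (isClosed_band967 Γ c C) hR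

/-- **The determinant bands of the centraliser of an elliptic `γ` are compact.** -/
theorem isCompact_detBand967 (γ : GL (Fin 2) ℝ) (hγ : disc γ < 0) (c C : ℝ) (hc : 0 < c) :
    IsCompact {t : twCentSub (MonoidHom.id (GL (Fin 2) ℝ)) γ |
      c ≤ ((t : GL (Fin 2) ℝ) : Matrix (Fin 2) (Fin 2) ℝ).det ∧
        ((t : GL (Fin 2) ℝ) : Matrix (Fin 2) (Fin 2) ℝ).det ≤ C} := by
  rw [Subtype.isCompact_iff, isEmbedding_val967.isCompact_iff]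
  have e : (Units.val : GL (Fin 2) ℝ → Matrix (Fin 2) (Fin 2) ℝ) ''
      (Subtype.val '' {t : twCentSub (MonoidHom.id (GL (Fin 2) ℝ)) γ |
        c ≤ ((t : GL (Fin 2) ℝ) : Matrix (Fin 2) (Fin 2) ℝ).det ∧
          ((t : GL (Fin 2) ℝ) : Matrix (Fin 2) (Fin 2) ℝ).det ≤ C})
      = band967 (γ : Matrix (Fin 2) (Fin 2) ℝ) c C := by
    ext X
    constructor
    · rintro ⟨g, ⟨t, ⟨h1, h2⟩, rfl⟩, rfl⟩
      exact ⟨(mem_twCent_iff967 γ t).1 t.2, h1, h2⟩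
    · rintro ⟨hX, h1, h2⟩
      have hdet : X.det ≠ 0 := (lt_of_lt_of_le hc h1).ne'
      refine ⟨Matrix.GeneralLinearGroup.mkOfDetNeZero X hdet,
        ⟨⟨Matrix.GeneralLinearGroup.mkOfDetNeZero X hdet, ?_⟩, ⟨?_, ?_⟩, rfl⟩, rfl⟩
      · exact (mem_twCent_iff967 γ _).2 hX
      · exact h1
      · exact h2
  rw [e]
  exact isCompact_band967 _ hγ c C

end Fermat.Agent.LT.T6.H967

end
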